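import Mathlib
import Fermat.Agent.S17.R.Riemann
import Fermat.Agent.S17.R.Eval
import Fermat.Agent.S17.R.Apery
import Fermat.Agent.S17.R.Gaps

/-!
# Program PJ (S27), strand L, leaf HUR (S4): the count

`F / K` a function field of one variable over an algebraically closed field of characteristic
zero, `v₀` a place, `x` regular off `v₀` with a pole of order `n0 > 0` at `v₀`.

`ram_ge`: let `ν j ≡ j (mod n0)` with `gR = ∑ ⌊ν j / n0⌋` (the Apéry pole orders), and let
`z 0, …, z (n0 - 1)` be functions, independent over `K[x]`, with a zero of order `≥ ν j` at `v₀`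
and poles bounded by a divisor `E` off `v₀` (`E v₀ = 0`).  Then `2 gR + n0 - 1 ≤ deg E`.

Proof: for `k = q n0 - 1`, `q` large, the functions `x ^ d * z j` with `n0 d ≤ k + ν j` lie in
`L(k v₀ + E)` and are `K`-independent; their number is `∑ j (⌊(k + ν j) / n0⌋ + 1) = k + gR + n0`
(only `j = 0` loses one), while `l(k v₀ + E) = k + deg E + 1 - gR` by Riemann's theorem.
-/

set_option autoImplicit false
set_option linter.unusedSectionVars false

namespace Fermat.Agent.S27.Hur.Count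

open AlgebraicCurve Polynomial
open Fermat.Agent.S17.R

variable {K F : Type*} [Field K] [Field F] [Algebra K F]
variable [IsAlgClosed K] [CharZero K] [Algebra.EssFiniteType K F]

/-- The number of admissible exponents: `⌊(q n0 - 1 + ν) / n0⌋ = q + ⌊ν / n0⌋ - [ν ≡ 0]`. -/
theorem div_count {n0 : ℕ} (hn0 : 0 < n0) {q : ℕ} (hq : 0 < q) (ν : ℕ) :
    (q * n0 - 1 + ν) / n0 + 1 + (if ν % n0 = 0 then 1 else 0) = q + ν / n0 + 1 := by
  obtain ⟨q', rfl⟩ : ∃ q' : ℕ, q = q' + 1 := ⟨q - 1, by omega⟩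
  have hν := Nat.div_add_mod ν n0
  have hr := Nat.mod_lt ν hn0
  generalize ν / n0 = a at hν ⊢
  generalize ν % n0 = r at hν hr ⊢
  have h1 : (q' + 1) * n0 - 1 + ν = n0 * (q' + a) + (n0 - 1 + r) := by
    have h2 : (q' + 1) * n0 = n0 * q' + n0 := by ring
    have h3 : n0 * (q' + a) = n0 * q' + n0 * a := by ring
    rw [h2, h3]
    omega
  rw [h1, Nat.mul_add_div hn0]
  by_cases h0 : r = 0
  · rw [if_pos h0, h0, Nat.add_zero, Nat.div_eq_of_lt (by omega)]
    omega
  · rw [if_neg h0]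
    have h4 : (n0 - 1 + r) / n0 = 1 := by
      apply Nat.div_eq_of_lt_le <;> omega
    rw [h4]
    omega

/-- **The count (S4) of HUR-S.** -/
theorem ram_ge (htr : Algebra.trdeg K F = 1) (v₀ : Place K F) {x : F} (hx : x ∈ regOff v₀)
    {n0 : ℕ} (hn0 : 0 < n0) (hord : v₀.ord x = -(n0 : ℤ))
    (ν : Fin n0 → ℕ) (hν : ∀ i, ν i % n0 = (i : ℕ))
    (hg : (gR K F : ℤ) = ∑ i, ((ν i / n0 : ℕ) : ℤ))
    (z : Fin n0 → F) (hzord : ∀ j, (ν j : ℤ) ≤ v₀.ord (z j))
    (hzind : ∀ c : Fin n0 → K[X], ∑ j, Polynomial.aeval x (c j) * z j = 0 → c = 0)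
    (E : Divisor K F) (hE0 : E v₀ = 0)
    (hzE : ∀ (j : Fin n0) (v : Place K F), v ≠ v₀ → -E v ≤ v.ord (z j)) :
    2 * (gR K F : ℤ) + (n0 : ℤ) - 1 ≤ Divisor.degree E := by
  classical
  obtain ⟨c, hc⟩ := riemann_eq_of_large (K := K) (F := F) htr
  -- `q` large
  obtain ⟨q, hq0, hq⟩ : ∃ q : ℕ, 0 < q ∧ c ≤ (q : ℤ) * n0 - 1 + Divisor.degree E := by
    refine ⟨(c - Divisor.degree E + 1).toNat + 1, Nat.succ_pos _, ?_⟩
    have h1 : c - Divisor.degree E + 1 ≤ ((c - Divisor.degree E + 1).toNat : ℤ) :=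
      Int.self_le_toNat _
    have h2 : (1 : ℤ) ≤ n0 := by exact_mod_cast hn0
    have h3 : (0 : ℤ) ≤ ((c - Divisor.degree E + 1).toNat : ℤ) := Int.natCast_nonneg _
    push_cast
    nlinarith [mul_nonneg (by linarith : (0 : ℤ) ≤ ((c - Divisor.degree E + 1).toNat : ℤ) + 1)
      (by linarith : (0 : ℤ) ≤ (n0 : ℤ) - 1)]
  -- the divisor `k v₀ + E`, `k = q n0 - 1`
  obtain ⟨D, hD⟩ : ∃ D : Divisor K F,
      D = ((q : ℤ) * n0 - 1) • Finsupp.single v₀ (1 : ℤ) + E := ⟨_, rfl⟩
  have hdegD : Divisor.degree D = (q : ℤ) * n0 - 1 + Divisor.degree E := by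
    rw [hD, map_add, PoleOrder.degree_zsmul_single htr v₀]
  have hfin := hc D (by rw [hdegD]; exact hq)
  have := finite_L htr D
  have hDv0 : D v₀ = (q : ℤ) * n0 - 1 := by
    rw [hD, Finsupp.add_apply, Finsupp.smul_apply, Finsupp.single_eq_same, smul_eq_mul, mul_one,
      hE0, add_zero]
  have hDv : ∀ v : Place K F, v ≠ v₀ → D v = E v := by
    intro v hv
    rw [hD, Finsupp.add_apply, Finsupp.smul_apply, Finsupp.single_eq_of_ne hv, smul_zero,
      zero_add]
  -- the `z j` are not zero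
  have hz0 : ∀ j, z j ≠ 0 := by
    intro j h0
    have h1 := hzind (Pi.single j 1) (by rw [Apery.sum_single, h0, mul_zero])
    have h2 := congrFun h1 j
    rw [Pi.single_eq_same, Pi.zero_apply] at h2
    exact one_ne_zero h2
  -- the numbers of admissible exponents
  obtain ⟨e, he⟩ : ∃ e : Fin n0 → ℕ, ∀ j, e j = (q * n0 - 1 + ν j) / n0 + 1 := ⟨_, fun _ => rfl⟩
  have hqn : 1 ≤ q * n0 := Nat.mul_pos hq0 hn0
  -- the terms lie in `L(D)`
  have hterm : ∀ (j : Fin n0) (p : K[X]), p ∈ Polynomial.degreeLT K (e j) →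
      Polynomial.aeval x p * z j ∈ riemannRochSpace D := by
    intro j p hp
    by_cases hp0 : p = 0
    · rw [hp0, map_zero, zero_mul]
      exact zero_mem _
    obtain ⟨hne, hordp⟩ := Gaps.ord_aeval v₀ hn0 hord hp0
    have hne' : Polynomial.aeval x p * z j ≠ 0 := mul_ne_zero hne (hz0 j)
    rw [mem_L_of_ne_zero hne']
    intro v
    rw [v.ord_mul hne (hz0 j)]
    by_cases hv : v = v₀
    · rw [hv, hDv0, hordp]
      have h1 : p.natDegree < e j :=
        (Polynomial.natDegree_lt_iff_degree_lt hp0).mpr (Polynomial.mem_degreeLT.mp hp)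
      rw [he j] at h1
      have h2 : p.natDegree ≤ (q * n0 - 1 + ν j) / n0 := Nat.lt_succ_iff.mp h1
      have h3 : p.natDegree * n0 ≤ q * n0 - 1 + ν j :=
        le_trans (Nat.mul_le_mul_right n0 h2) (Nat.div_mul_le_self _ _)
      have h4 : p.natDegree * n0 + 1 ≤ q * n0 + ν j := by omega
      have h5 : ((p.natDegree * n0 : ℕ) : ℤ) + 1 ≤ (q : ℤ) * n0 + ν j := by exact_mod_cast h4
      have h6 := hzord j
      linarith
    · rw [hDv v hv]
      have h1 : 0 ≤ v.ord (Polynomial.aeval x p) :=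
        Fermat.Agent.S24.FF.ord_nonneg_of_mem v (Apery.aeval_mem_regOff hx p v hv)
      have h2 := hzE j v hv
      linarith
  have hmem : ∀ c : (j : Fin n0) → ↥(Polynomial.degreeLT K (e j)),
      Apery.phi (K := K) x z e c ∈ riemannRochSpace D := by
    intro c
    rw [Apery.phi_apply]
    exact Submodule.sum_mem _ fun j _ => hterm j (c j) (c j).2
  -- independence
  have hinj : Function.Injective
      ((Apery.phi (K := K) x z e).codRestrict (riemannRochSpace D) hmem) := by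
    rw [← LinearMap.ker_eq_bot, LinearMap.ker_codRestrict, LinearMap.ker_eq_bot']
    intro c hc0
    rw [Apery.phi_apply] at hc0
    have h1 := hzind (fun j => (c j : K[X])) hc0
    funext j
    exact Subtype.ext (congrFun h1 j)
  have hle := LinearMap.finrank_le_finrank_of_injective hinj
  rw [Apery.finrank_dom] at hle
  -- the count
  have h1 : ∀ j : Fin n0, (e j : ℤ) + (if j = ⟨0, hn0⟩ then (1 : ℤ) else 0) =
      (q : ℤ) + ((ν j / n0 : ℕ) : ℤ) + 1 := by
    intro j
    have h2 := div_count hn0 hq0 (ν j)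
    rw [hν j, ← he j] at h2
    by_cases hj : j = ⟨0, hn0⟩
    · rw [if_pos hj]
      rw [if_pos (by rw [hj])] at h2
      exact_mod_cast h2
    · rw [if_neg hj]
      rw [if_neg (fun h => hj (Fin.ext h))] at h2
      exact_mod_cast h2
  have hcount : (∑ j, (e j : ℤ)) + 1 = (n0 : ℤ) * q + (gR K F : ℤ) + n0 := by
    have h2 : (∑ j : Fin n0, ((e j : ℤ) + (if j = ⟨0, hn0⟩ then (1 : ℤ) else 0))) =
        ∑ j : Fin n0, ((q : ℤ) + ((ν j / n0 : ℕ) : ℤ) + 1) :=
      Finset.sum_congr rfl fun j _ => h1 j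
    rw [Finset.sum_add_distrib, Finset.sum_ite_eq' Finset.univ (⟨0, hn0⟩ : Fin n0)
      (fun _ => (1 : ℤ)), if_pos (Finset.mem_univ _), Finset.sum_add_distrib,
      Finset.sum_add_distrib, ← hg, Finset.sum_const, Finset.sum_const, Finset.card_univ,
      Fintype.card_fin] at h2
    rw [h2]
    simp only [nsmul_eq_mul, mul_one]
  have hle' : (∑ j, (e j : ℤ)) ≤ (Module.finrank K ↥(riemannRochSpace D) : ℤ) := by
    exact_mod_cast hle
  rw [hfin, hdegD] at hle'
  linarith

end Fermat.Agent.S27.Hur.Count
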