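/-
Program MW (statement S17), strand HB, leaf HUR-S (T1): the trace at a fibre does not vanish.

Setting: `x ∈ regOff v₀` with a pole of order `n0 > 0` at `v₀`; `regOff v₀` is a free `K[X]`-module
of rank `n0` (`X ↦ x`, Apéry basis).  For a function `f` regular off `v₀` which is a unit at ONE
point `v` of the fibre `x = a` and vanishes at all the other points of that fibre,
`(Tr f)(a) ≠ 0`.

Proof: reduce the regular representation on an Apéry basis at `X = a` (`redRep`).  The matrix
`Y` of `f` satisfies `(Y (Y - c)) ^ n0 = 0`, `c = f(v) ≠ 0` (the function `f (f - c)` vanishes on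
the whole fibre, and every ramification index is at most `n0`), and `Y` is not nilpotent (the
kernel of `redRep` is `(x - a) · regOff v₀`, whose members vanish at `v`).  Then
`MatTrace.trace_ne_zero_of_nilpotent`.
-/
import Mathlib
import Fermat.Agent.S17.H.Glob.AperyAlg
import Fermat.Agent.S17.R.PoleDegree
import Fermat.Agent.S17.HB.HurS.MatTrace

set_option autoImplicit false
set_option linter.unusedSectionVars false
set_option linter.style.haveILetI false

namespace Fermat.Agent.S27.Hur.FibreTrace

open AlgebraicCurve Polynomial Fermat.Agent.S17.R Fermat.Agent.S17.H.AperyAlg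
open Fermat.Agent.S17.HB.HurS
open Fermat.Agent.S24.FF

section Generic

variable {K : Type*} [Field K] {S : Type*} [CommRing S] [Algebra K[X] S] {n : ℕ}

/-- The regular representation on a `K[X]`-basis, reduced at `X = a`. -/
noncomputable def redRep (b : Module.Basis (Fin n) K[X] S) (a : K) :
    S →+* Matrix (Fin n) (Fin n) K :=
  (Polynomial.evalRingHom a).mapMatrix.comp (Algebra.leftMulMatrix b).toRingHom

theorem redRep_apply (b : Module.Basis (Fin n) K[X] S) (a : K) (s : S) (i j : Fin n) :
    redRep b a s i j = (Algebra.leftMulMatrix b s i j).eval a := rfl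

/-- The trace of the reduced matrix is the value at `a` of the trace. -/
theorem trace_redRep (b : Module.Basis (Fin n) K[X] S) (a : K) (s : S) :
    (redRep b a s).trace = (Algebra.trace K[X] S s).eval a := by
  rw [Algebra.trace_eq_matrix_trace b s]
  exact (AddMonoidHom.map_trace (Polynomial.evalRingHom a) (Algebra.leftMulMatrix b s)).symm

/-- Polynomials in `X` act by their value at `a`. -/
theorem redRep_algebraMap (b : Module.Basis (Fin n) K[X] S) (a : K) (p : K[X]) :
    redRep b a (algebraMap K[X] S p) = p.eval a • (1 : Matrix (Fin n) (Fin n) K) := by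
  ext i j
  rw [redRep_apply, AlgHom.commutes, Matrix.algebraMap_matrix_apply, Matrix.smul_apply,
    Matrix.one_apply]
  split_ifs with h
  · rw [Algebra.algebraMap_self_apply, smul_eq_mul, mul_one]
  · rw [Polynomial.eval_zero, smul_zero]

/-- The kernel of the reduced representation is contained in `(X - a) · S`. -/
theorem exists_eq_mul_of_redRep_eq_zero (b : Module.Basis (Fin n) K[X] S) (a : K) (s : S)
    (h : redRep b a s = 0) : ∃ t : S, s = algebraMap K[X] S (X - C a) * t := by
  have hdvd : ∀ i j, (X - C a) ∣ Algebra.leftMulMatrix b s i j := by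
    intro i j
    rw [Polynomial.dvd_iff_isRoot]
    have h1 := congrFun (congrFun h i) j
    rw [redRep_apply] at h1
    exact h1
  choose q hq using hdvd
  refine ⟨∑ i, (∑ j, q i j * b.repr 1 j) • b i, ?_⟩
  have h2 : ∀ i, b.repr s i = (X - C a) * ∑ j, q i j * b.repr 1 j := by
    intro i
    have h3 : ∑ j, Algebra.leftMulMatrix b s i j * b.repr 1 j = b.repr (s * 1) i :=
      congrFun (Algebra.leftMulMatrix_mulVec_repr b s 1) i
    rw [mul_one] at h3
    rw [← h3, Finset.mul_sum]
    refine Finset.sum_congr rfl fun j _ => ?_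
    rw [hq i j, mul_assoc]
  rw [← Algebra.smul_def, Finset.smul_sum]
  conv_lhs => rw [← b.sum_repr s]
  refine Finset.sum_congr rfl fun i _ => ?_
  rw [h2 i, mul_smul]

end Generic

section Curve

variable {K F : Type*} [Field K] [Field F] [Algebra K F]
variable [IsAlgClosed K] [CharZero K] [Algebra.EssFiniteType K F]

/-- Each ramification index in a fibre of `x` is at most `n0`. -/
theorem ord_fibre_le (htr : Algebra.trdeg K F = 1) (v₀ : Place K F) {x : F}
    (hx : x ∈ regOff v₀) {n0 : ℕ} (hn0 : 0 < n0) (hord : v₀.ord x = -(n0 : ℤ)) (a : K)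
    (u : Place K F) (hu : 0 < u.ord (x - algebraMap K F a)) :
    u.ord (x - algebraMap K F a) ≤ (n0 : ℤ) := by
  have hn0' : (0 : ℤ) < (n0 : ℤ) := by exact_mod_cast hn0
  have hfin := PoleDegree.fibre_finite htr (v₀ := v₀) (x := x) (by omega) a
  have hsum := PoleDegree.sum_ord_fibre htr v₀ hx hn0 hord a
  rw [finsum_mem_eq_finite_toFinset_sum _ hfin] at hsum
  rw [← hsum]
  exact Finset.single_le_sum (f := fun w : Place K F => w.ord (x - algebraMap K F a))
    (fun w hw => le_of_lt ((Set.Finite.mem_toFinset hfin).mp hw))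
    ((Set.Finite.mem_toFinset hfin).mpr hu)

/-- **T1**: non-vanishing of the trace at a fibre.  If `f`, regular off `v₀`, is a unit at the
point `v` of the fibre `x = a` and vanishes at every other point of that fibre, then the trace
of `f` (a polynomial in `x`) does not vanish at `a`. -/
theorem trace_eval_ne_zero (htr : Algebra.trdeg K F = 1) (v₀ : Place K F) {x : F}
    (hx : x ∈ regOff v₀) {n0 : ℕ} (hn0 : 0 < n0) (hord : v₀.ord x = -(n0 : ℤ)) (a : K)
    (v : Place K F) (hv : 0 < v.ord (x - algebraMap K F a)) (f : ↥(regOff v₀))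
    (hf0 : (f : F) ≠ 0) (hfv : v.ord (f : F) = 0)
    (hfw : ∀ w : Place K F, w ≠ v → 0 < w.ord (x - algebraMap K F a) → 0 < w.ord (f : F)) :
    letI := xAlg hx
    (Algebra.trace K[X] ↥(regOff v₀) f).eval a ≠ 0 := by
  letI := xAlg hx
  haveI := isScalarTower hx
  have hn0' : (0 : ℤ) < (n0 : ℤ) := by exact_mod_cast hn0
  have hneg : v₀.ord x < 0 := by rw [hord]; omega
  obtain ⟨ν, w, h1, huniq, -, -⟩ := exists_apery_basis htr v₀ hx hn0 hord
  have hwm : ∀ i, w i ∈ regOff v₀ := fun i => (h1 i).1
  let b : Module.Basis (Fin n0) K[X] ↥(regOff v₀) := basisOf hx w hwm huniq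
  rw [← trace_redRep b a f]
  -- `x - a` as a member of the ring, and in `F`
  have hxa : ((algebraMap K[X] ↥(regOff v₀) (X - C a) : ↥(regOff v₀)) : F) =
      x - algebraMap K F a := by
    rw [coe_algebraMap hx, map_sub, Polynomial.aeval_X, Polynomial.aeval_C]
  have hxa0 : x - algebraMap K F a ≠ 0 := by
    intro h0
    rw [h0, Place.ord_zero] at hv
    exact lt_irrefl _ hv
  have hvne : v ≠ v₀ := PoleDegree.ne_of_mem_fibre hneg hv
  have hfvmem : (f : F) ∈ v.toValuationSubring := f.2 v hvne
  -- the value `c` of `f` at `v`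
  obtain ⟨c, hcval⟩ : ∃ c : K, (f : F) = algebraMap K F c ∨
      0 < v.ord ((f : F) - algebraMap K F c) :=
    ⟨evalAt htr v ⟨(f : F), hfvmem⟩, (evalAt_eq_iff htr v ⟨(f : F), hfvmem⟩ _).mp rfl⟩
  have hc : c ≠ 0 := by
    rintro rfl
    rw [map_zero, sub_zero] at hcval
    rcases hcval with h | h
    · exact hf0 h
    · omega
  -- `f - c`
  obtain ⟨fc, hfc, hfc_coe⟩ : ∃ fc : ↥(regOff v₀), fc = f - algebraMap K ↥(regOff v₀) c ∧
      (fc : F) = (f : F) - algebraMap K F c := ⟨_, rfl, rfl⟩
  -- a power of `f (f - c)` is divisible by `x - a`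
  have hdiv : ∃ r : ↥(regOff v₀),
      (f * fc) ^ n0 = algebraMap K[X] ↥(regOff v₀) (X - C a) * r := by
    rcases hcval with h | h
    · refine ⟨0, ?_⟩
      have h0 : fc = 0 := Subtype.ext (by rw [hfc_coe, h, sub_self]; rfl)
      rw [h0, mul_zero, mul_zero, zero_pow hn0.ne']
    · have hfc0 : (fc : F) ≠ 0 := by
        intro h0
        rw [← hfc_coe, h0, Place.ord_zero] at h
        exact lt_irrefl _ h
      have hh0 : (f : F) * (fc : F) ≠ 0 := mul_ne_zero hf0 hfc0
      have hmem : ((f : F) * (fc : F)) ^ n0 / (x - algebraMap K F a) ∈ regOff v₀ := by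
        intro u hu
        have hy0 : ((f : F) * (fc : F)) ^ n0 / (x - algebraMap K F a) ≠ 0 :=
          div_ne_zero (pow_ne_zero _ hh0) hxa0
        rw [← ord_nonneg_iff u hy0, div_eq_mul_inv,
          u.ord_mul (pow_ne_zero _ hh0) (inv_ne_zero hxa0), u.ord_inv, ← zpow_natCast,
          u.ord_zpow, u.ord_mul hf0 hfc0]
        have hf_nn : 0 ≤ u.ord (f : F) := ord_nonneg_of_mem u (f.2 u hu)
        have hfc_nn : 0 ≤ u.ord (fc : F) := ord_nonneg_of_mem u (fc.2 u hu)
        by_cases hfib : 0 < u.ord (x - algebraMap K F a)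
        · have hle := ord_fibre_le htr v₀ hx hn0 hord a u hfib
          have hpos : 1 ≤ u.ord (f : F) + u.ord (fc : F) := by
            by_cases huv : u = v
            · rw [huv, hfc_coe]
              omega
            · have h2 := hfw u huv hfib
              omega
          nlinarith [mul_nonneg hn0'.le (sub_nonneg.mpr hpos)]
        · have h3 : 0 ≤ (n0 : ℤ) * (u.ord (f : F) + u.ord (fc : F)) :=
            mul_nonneg hn0'.le (add_nonneg hf_nn hfc_nn)
          linarith [not_lt.mp hfib]
      refine ⟨⟨_, hmem⟩, Subtype.ext ?_⟩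
      rw [MulMemClass.coe_mul, hxa]
      show ((f : F) * (fc : F)) ^ n0 =
        (x - algebraMap K F a) * (((f : F) * (fc : F)) ^ n0 / (x - algebraMap K F a))
      field_simp
  obtain ⟨r, hr⟩ := hdiv
  have hY : redRep b a (f * fc) =
      redRep b a f * (redRep b a f - c • (1 : Matrix (Fin n0) (Fin n0) K)) := by
    rw [map_mul, hfc, map_sub, IsScalarTower.algebraMap_apply K K[X] ↥(regOff v₀),
      Polynomial.algebraMap_eq, redRep_algebraMap, Polynomial.eval_C]
  apply MatTrace.trace_ne_zero_of_nilpotent (redRep b a f) c hc n0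
  · rw [← hY, ← map_pow, hr, map_mul, redRep_algebraMap, Polynomial.eval_sub, Polynomial.eval_X,
      Polynomial.eval_C, sub_self, zero_smul, zero_mul]
  · intro k hk
    rw [← map_pow] at hk
    obtain ⟨t, ht⟩ := exists_eq_mul_of_redRep_eq_zero b a (f ^ k) hk
    have ht' : (f : F) ^ k = (x - algebraMap K F a) * (t : F) := by
      have h2 := congrArg Subtype.val ht
      rw [MulMemClass.coe_mul, hxa] at h2
      exact h2
    have hfk0 : (f : F) ^ k ≠ 0 := pow_ne_zero _ hf0
    have ht0 : (t : F) ≠ 0 := by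
      intro h0
      rw [h0, mul_zero] at ht'
      exact hfk0 ht'
    have h2 := congrArg v.ord ht'
    rw [← zpow_natCast, v.ord_zpow, hfv, mul_zero, v.ord_mul hxa0 ht0] at h2
    have h3 : 0 ≤ v.ord (t : F) := ord_nonneg_of_mem v (t.2 v hvne)
    omega

end Curve

end Fermat.Agent.S27.Hur.FibreTrace
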