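/-
Program PJ (S27), strand L, leaf Hur/Tame ((S3) of the Hurwitz count, cut #11217 of helper200).

`x ∈ regOff v₀` with a pole of order `n0 > 0` at `v₀`, `regOff v₀` a `K[X]`-algebra by `X ↦ x`
(`AperyAlg.xAlg`).  If `g ∈ regOff v₀`, `g ≠ 0`, and `D ∈ K[X] \ 0` divides every trace
`Tr (f * g)`, `f ∈ regOff v₀` (i.e. `g / D(x)` lies in the trace dual of `regOff v₀`), then at
every place `v` of the fibre `x = a`

  `ord_v (D(x)) ≤ ord_v g + ord_v (x - a) - 1`,

i.e. `ord_v (g / D(x)) ≥ -(e_v - 1)`: the different is TAME (characteristic zero).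

Proof.  `e := ord_v (x - a)`, `m := ord_v g`, `μ := ` the multiplicity of `a` as a root of `D`,
so `ord_v (D(x)) = μ e`.  If `m + e ≤ μ e`, put `q := ⌈m / e⌉ ≤ μ - 1`, `k := q e - m < e`.  With a
function `y` that is a simple separating coordinate on the fibre (`R.exists_simple_separating`),
`r := ∏_w (y - y(w)) ^ N w` with `N v = k`, `N w = q n0 + 1` otherwise has exactly these orders on
the fibre, so `y₀ := g r / (x - a) ^ q` is regular off `v₀`, a unit at `v` and vanishes at the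
other points of the fibre: `(Tr y₀)(a) ≠ 0` by `FibreTrace.trace_eval_ne_zero`.  But
`(X - a) ^ q * Tr y₀ = Tr (r * g)` is divisible by `D`, hence by `(X - a) ^ (q + 1)`.
-/
import Mathlib
import Fermat.Agent.S17.R.FibreSep
import Fermat.Agent.S27.Hur.FibreTrace

set_option autoImplicit false
set_option linter.unusedSectionVars false
set_option linter.style.haveILetI false

namespace Fermat.Agent.S27.Hur.Tame

open AlgebraicCurve Polynomial Fermat.Agent.S17.R Fermat.Agent.S17.H.AperyAlg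
open Fermat.Agent.S24.FF

variable {K F : Type*} [Field K] [Field F] [Algebra K F]

/-- Polynomial expressions in a function regular at `v` are regular at `v`. -/
theorem aeval_mem (v : Place K F) {x : F} (hx : x ∈ v.toValuationSubring) (P : K[X]) :
    Polynomial.aeval x P ∈ v.toValuationSubring := by
  rw [Polynomial.aeval_eq_sum_range]
  refine sum_mem fun i _ => ?_
  rw [Algebra.smul_def]
  exact mul_mem (v.algebraMap_mem' _) (pow_mem hx i)

/-- At a place of the fibre `x = a`, a polynomial in `x` that does not vanish at `a` is a unit. -/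
theorem aeval_ne_zero_and_ord (v : Place K F) {x : F} {a : K}
    (hva : 0 < v.ord (x - algebraMap K F a)) (P : K[X]) (hP : P.eval a ≠ 0) :
    Polynomial.aeval x P ≠ 0 ∧ v.ord (Polynomial.aeval x P) = 0 := by
  have hxa : x - algebraMap K F a ∈ v.toValuationSubring := mem_of_ord_pos v hva
  have hxm : x ∈ v.toValuationSubring := by
    have h := add_mem hxa (v.algebraMap_mem' a)
    rwa [sub_add_cancel] at h
  have hdecomp : Polynomial.aeval x P =
      algebraMap K F (P.eval a) +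
        (x - algebraMap K F a) * Polynomial.aeval x (P /ₘ (X - C a)) := by
    have h := Polynomial.modByMonic_add_div P (X - C a)
    rw [Polynomial.modByMonic_X_sub_C_eq_C_eval] at h
    have h2 := congrArg (Polynomial.aeval x) h
    rw [map_add, map_mul, map_sub, Polynomial.aeval_C, Polynomial.aeval_X,
      Polynomial.aeval_C] at h2
    exact h2.symm
  have hc0 : algebraMap K F (P.eval a) ≠ 0 := (map_ne_zero (algebraMap K F)).mpr hP
  rw [hdecomp]
  rcases eq_or_ne ((x - algebraMap K F a) * Polynomial.aeval x (P /ₘ (X - C a))) 0 with h0 | h0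
  · rw [h0, add_zero]
    exact ⟨hc0, ord_algebraMap v _⟩
  · have hxa0 : x - algebraMap K F a ≠ 0 := left_ne_zero_of_mul h0
    have hq0 : Polynomial.aeval x (P /ₘ (X - C a)) ≠ 0 := right_ne_zero_of_mul h0
    have hq := ord_nonneg_of_mem v (aeval_mem v hxm (P /ₘ (X - C a)))
    have h1 : v.ord (algebraMap K F (P.eval a)) <
        v.ord ((x - algebraMap K F a) * Polynomial.aeval x (P /ₘ (X - C a))) := by
      rw [ord_algebraMap, v.ord_mul hxa0 hq0]
      omega
    have h2 := ord_add_eq_of_lt v h1 hc0 h0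
    refine ⟨fun hz => ?_, by rw [h2, ord_algebraMap]⟩
    rw [hz, Place.ord_zero, ord_algebraMap] at h2
    rw [ord_algebraMap, v.ord_mul hxa0 hq0] at h1
    have h3 : (x - algebraMap K F a) * Polynomial.aeval x (P /ₘ (X - C a)) =
        -algebraMap K F (P.eval a) := by
      rw [eq_neg_iff_add_eq_zero, add_comm]
      exact hz
    have h4 : v.ord ((x - algebraMap K F a) * Polynomial.aeval x (P /ₘ (X - C a))) = 0 := by
      rw [h3, ord_neg, ord_algebraMap]
    rw [v.ord_mul hxa0 hq0] at h4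
    omega

/-- At a place of the fibre `x = a`, the order of `D(x)` is the multiplicity of the root `a`
of `D` times the ramification index. -/
theorem ord_aeval (v : Place K F) {x : F} {a : K} (hva : 0 < v.ord (x - algebraMap K F a))
    (D : K[X]) (hD : D ≠ 0) :
    v.ord (Polynomial.aeval x D) =
      (D.rootMultiplicity a : ℤ) * v.ord (x - algebraMap K F a) := by
  obtain ⟨Q, hQ, hndvd⟩ := Polynomial.exists_eq_pow_rootMultiplicity_mul_and_not_dvd D hD a
  have hQa : Q.eval a ≠ 0 := fun h => hndvd (Polynomial.dvd_iff_isRoot.mpr h)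
  have hxa0 : x - algebraMap K F a ≠ 0 := by
    intro h
    rw [h, Place.ord_zero] at hva
    omega
  obtain ⟨hQ0, hQord⟩ := aeval_ne_zero_and_ord v hva Q hQa
  have h1 : Polynomial.aeval x D =
      (x - algebraMap K F a) ^ D.rootMultiplicity a * Polynomial.aeval x Q := by
    have h2 := congrArg (Polynomial.aeval x) hQ
    rw [map_mul, map_pow, map_sub, Polynomial.aeval_X, Polynomial.aeval_C] at h2
    exact h2
  rw [h1, v.ord_mul (pow_ne_zero _ hxa0) hQ0, FibreSep.ord_pow' v hxa0, hQord, add_zero]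

/-- A product of units at `v` is a unit at `v`. -/
theorem prod_ne_zero_and_ord {ι : Type*} (v : Place K F) (s : Finset ι) (f : ι → F)
    (h : ∀ i ∈ s, f i ≠ 0 ∧ v.ord (f i) = 0) :
    (∏ i ∈ s, f i) ≠ 0 ∧ v.ord (∏ i ∈ s, f i) = 0 := by
  classical
  induction s using Finset.induction_on with
  | empty =>
    rw [Finset.prod_empty]
    exact ⟨one_ne_zero, Place.ord_one v⟩
  | insert i s hi ih =>
    rw [Finset.prod_insert hi]
    have h1 := h i (Finset.mem_insert_self i s)
    have h2 := ih fun j hj => h j (Finset.mem_insert_of_mem hj)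
    exact ⟨mul_ne_zero h1.1 h2.1, by rw [v.ord_mul h1.1 h2.1, h1.2, h2.2, add_zero]⟩

variable [IsAlgClosed K] [CharZero K] [Algebra.EssFiniteType K F]

/-- **(S3), tameness of the trace dual.**  If `D` divides every trace `Tr (f * g)`,
`f ∈ regOff v₀`, then `ord_v (D(x)) ≤ ord_v g + e_v - 1` at every place `v` of the fibre
`x = a`, `e_v = ord_v (x - a)`. -/
theorem tame (htr : Algebra.trdeg K F = 1) (v₀ : Place K F) {x : F} (hx : x ∈ regOff v₀)
    {n0 : ℕ} (hn0 : 0 < n0) (hord : v₀.ord x = -(n0 : ℤ)) (D : K[X]) (hD : D ≠ 0)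
    (g : ↥(regOff v₀)) (hg : (g : F) ≠ 0)
    (htrace : letI := xAlg hx
      ∀ f : ↥(regOff v₀), D ∣ Algebra.trace K[X] ↥(regOff v₀) (f * g))
    (v : Place K F) (a : K) (hva : 0 < v.ord (x - algebraMap K F a)) :
    v.ord (Polynomial.aeval x D) ≤ v.ord (g : F) + v.ord (x - algebraMap K F a) - 1 := by
  classical
  letI := xAlg hx
  by_contra hcon
  rw [not_le] at hcon
  have hn0' : (0 : ℤ) < (n0 : ℤ) := by exact_mod_cast hn0
  have hneg : v₀.ord x < 0 := by
    rw [hord]
    omega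
  have hvv₀ : v ≠ v₀ := PoleDegree.ne_of_mem_fibre hneg hva
  have hxa0 : x - algebraMap K F a ≠ 0 := by
    intro h
    rw [h, Place.ord_zero] at hva
    omega
  have hxa_mem : x - algebraMap K F a ∈ regOff v₀ :=
    sub_mem hx (Subalgebra.algebraMap_mem _ _)
  -- `e`, `m`, `μ` as natural numbers
  obtain ⟨e, he⟩ : ∃ e : ℕ, v.ord (x - algebraMap K F a) = (e : ℤ) :=
    ⟨_, (Int.toNat_of_nonneg hva.le).symm⟩
  have hm0 : 0 ≤ v.ord (g : F) := ord_nonneg_of_mem v (g.2 v hvv₀)
  obtain ⟨m, hm⟩ : ∃ m : ℕ, v.ord (g : F) = (m : ℤ) := ⟨_, (Int.toNat_of_nonneg hm0).symm⟩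
  have he0 : 0 < e := by
    rw [he] at hva
    exact_mod_cast hva
  obtain ⟨μ, hμ⟩ : ∃ μ : ℕ, μ = D.rootMultiplicity a := ⟨_, rfl⟩
  have hordD : v.ord (Polynomial.aeval x D) = ((μ * e : ℕ) : ℤ) := by
    rw [ord_aeval v hva D hD, ← hμ, he]
    push_cast
    ring
  rw [hordD, hm, he] at hcon
  have hcon' : m + e ≤ μ * e := by omega
  -- `q = ⌈m / e⌉`, `k = q e - m`
  obtain ⟨q, k, hqk, hk, hq⟩ : ∃ q k : ℕ, m + k = q * e ∧ k < e ∧ q + 1 ≤ μ := by
    have h1 := Nat.div_add_mod (m + e - 1) e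
    have h2 := Nat.mod_lt (m + e - 1) he0
    obtain ⟨q, hq⟩ : ∃ q : ℕ, q = (m + e - 1) / e := ⟨_, rfl⟩
    rw [← hq] at h1
    have h3 : q * e = e * q := mul_comm q e
    refine ⟨q, e * q - m, ?_, ?_, ?_⟩
    · omega
    · omega
    · have h4 : q * e < μ * e := by omega
      have h5 := Nat.lt_of_mul_lt_mul_right h4
      omega
  -- the fibre
  have hfin := PoleDegree.fibre_finite htr (v₀ := v₀) (x := x) (by omega : v₀.ord x ≠ 0) a
  obtain ⟨S, hS⟩ : ∃ S : Finset (Place K F), S = hfin.toFinset := ⟨_, rfl⟩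
  have hmemS : ∀ w : Place K F, w ∈ S ↔ 0 < w.ord (x - algebraMap K F a) := by
    intro w
    rw [hS, Set.Finite.mem_toFinset]
    exact Iff.rfl
  have hv₀S : v₀ ∉ S := fun h => PoleDegree.ne_of_mem_fibre hneg ((hmemS v₀).mp h) rfl
  have hvS : v ∈ S := (hmemS v).mpr hva
  have hle_n0 : ∀ w ∈ S, w.ord (x - algebraMap K F a) ≤ (n0 : ℤ) := by
    intro w hw
    have hsum := PoleDegree.sum_ord_fibre htr v₀ hx hn0 hord a
    rw [finsum_mem_eq_finite_toFinset_sum _ hfin, ← hS] at hsum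
    rw [← hsum]
    exact Finset.single_le_sum (f := fun u : Place K F => u.ord (x - algebraMap K F a))
      (fun u hu => ((hmemS u).mp hu).le) hw
  -- the separating coordinate
  obtain ⟨y, c, hy, hcinj, hyS⟩ := exists_simple_separating htr v₀ S hv₀S
  have hy0 : ∀ w ∈ S, y - algebraMap K F (c w) ≠ 0 := by
    intro w hw h0
    have h1 := hyS w hw
    rw [h0, Place.ord_zero] at h1
    omega
  have hcross : ∀ w ∈ S, ∀ u ∈ S, u ≠ w → w.ord (y - algebraMap K F (c u)) = 0 := by
    intro w hw u hu huw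
    have hcne : c w - c u ≠ 0 := fun h => huw (hcinj hu hw (sub_eq_zero.mp h).symm)
    have hc0 : algebraMap K F (c w - c u) ≠ 0 := (map_ne_zero (algebraMap K F)).mpr hcne
    have h1 : y - algebraMap K F (c u) =
        algebraMap K F (c w - c u) + (y - algebraMap K F (c w)) := by
      rw [map_sub]
      ring
    have h2 : w.ord (algebraMap K F (c w - c u)) < w.ord (y - algebraMap K F (c w)) := by
      rw [ord_algebraMap, hyS w hw]
      omega
    rw [h1, ord_add_eq_of_lt w h2 hc0 (hy0 w hw), ord_algebraMap]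
  -- the multiplier `r`
  obtain ⟨Nexp, hNexp⟩ : ∃ Nexp : Place K F → ℕ,
      Nexp = fun w => if w = v then k else q * n0 + 1 := ⟨_, rfl⟩
  obtain ⟨fac, hfac⟩ : ∃ fac : Place K F → F,
      fac = fun w => (y - algebraMap K F (c w)) ^ Nexp w := ⟨_, rfl⟩
  have hfac0 : ∀ w ∈ S, fac w ≠ 0 := by
    intro w hw
    rw [hfac]
    exact pow_ne_zero _ (hy0 w hw)
  have hfacmem : ∀ w : Place K F, fac w ∈ regOff v₀ := by
    intro w
    rw [hfac]
    exact pow_mem (sub_mem hy (Subalgebra.algebraMap_mem _ _)) _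
  obtain ⟨r, hr⟩ : ∃ r : F, r = ∏ w ∈ S, fac w := ⟨_, rfl⟩
  have hr0 : r ≠ 0 := by
    rw [hr]
    exact Finset.prod_ne_zero_iff.mpr hfac0
  have hrmem : r ∈ regOff v₀ := by
    rw [hr]
    exact Subalgebra.prod_mem _ fun w _ => hfacmem w
  have hrord : ∀ w ∈ S, w.ord r = (Nexp w : ℤ) := by
    intro w hw
    have hrest := prod_ne_zero_and_ord w (S.erase w) fac (fun u hu => by
      have huS : u ∈ S := Finset.mem_of_mem_erase hu
      refine ⟨hfac0 u huS, ?_⟩
      rw [hfac]
      show w.ord ((y - algebraMap K F (c u)) ^ Nexp u) = 0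
      rw [FibreSep.ord_pow' w (hy0 u huS), hcross w hw u huS (Finset.ne_of_mem_erase hu),
        mul_zero])
    rw [hr, ← Finset.mul_prod_erase S fac hw, w.ord_mul (hfac0 w hw) hrest.1, hrest.2, add_zero,
      hfac]
    show w.ord ((y - algebraMap K F (c w)) ^ Nexp w) = (Nexp w : ℤ)
    rw [FibreSep.ord_pow' w (hy0 w hw), hyS w hw, mul_one]
  -- the test function `y₀ = g r / (x - a) ^ q`
  obtain ⟨y₀, hy₀⟩ : ∃ y₀ : F, y₀ = (g : F) * r / (x - algebraMap K F a) ^ q := ⟨_, rfl⟩
  have hy₀0 : y₀ ≠ 0 := by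
    rw [hy₀]
    exact div_ne_zero (mul_ne_zero hg hr0) (pow_ne_zero _ hxa0)
  have hordy₀ : ∀ w : Place K F, w.ord y₀ =
      w.ord (g : F) + w.ord r - (q : ℤ) * w.ord (x - algebraMap K F a) := by
    intro w
    rw [hy₀, div_eq_mul_inv, w.ord_mul (mul_ne_zero hg hr0) (inv_ne_zero (pow_ne_zero _ hxa0)),
      w.ord_mul hg hr0, w.ord_inv, FibreSep.ord_pow' w hxa0]
    ring
  have hv0 : v.ord y₀ = 0 := by
    rw [hordy₀ v, hm, hrord v hvS, he, hNexp]
    simp only [if_true]
    have h1 : ((m + k : ℕ) : ℤ) = ((q * e : ℕ) : ℤ) := by rw [hqk]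
    push_cast at h1
    linarith
  have hw_pos : ∀ w : Place K F, w ≠ v → 0 < w.ord (x - algebraMap K F a) → 0 < w.ord y₀ := by
    intro w hwv hw
    have hwS : w ∈ S := (hmemS w).mpr hw
    have hwv₀ : w ≠ v₀ := fun h => hv₀S (h ▸ hwS)
    have hg0 : 0 ≤ w.ord (g : F) := ord_nonneg_of_mem w (g.2 w hwv₀)
    have h1 := hle_n0 w hwS
    have h2 : (q : ℤ) * w.ord (x - algebraMap K F a) ≤ (q : ℤ) * (n0 : ℤ) :=
      mul_le_mul_of_nonneg_left h1 (Int.natCast_nonneg q)
    rw [hordy₀ w, hrord w hwS, hNexp]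
    simp only [if_neg hwv]
    push_cast
    linarith
  have hy₀mem : y₀ ∈ regOff v₀ := by
    intro w hwv₀
    refine (ord_nonneg_iff w hy₀0).mp ?_
    by_cases hwS : w ∈ S
    · by_cases hwv : w = v
      · rw [hwv, hv0]
      · exact (hw_pos w hwv ((hmemS w).mp hwS)).le
    · have h1 : w.ord (x - algebraMap K F a) = 0 := by
        have h2 := ord_nonneg_of_mem w (hxa_mem w hwv₀)
        have h3 : ¬ 0 < w.ord (x - algebraMap K F a) := fun h => hwS ((hmemS w).mpr h)
        omega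
      have hg0 : 0 ≤ w.ord (g : F) := ord_nonneg_of_mem w (g.2 w hwv₀)
      have hr1 : 0 ≤ w.ord r := ord_nonneg_of_mem w (hrmem w hwv₀)
      rw [hordy₀ w, h1, mul_zero, sub_zero]
      omega
  -- the trace of `y₀` does not vanish at `a` ...
  have hT := FibreTrace.trace_eval_ne_zero htr v₀ hx hn0 hord a v hva ⟨y₀, hy₀mem⟩ hy₀0 hv0 hw_pos
  -- ... but `(X - a) ^ q * Tr y₀ = Tr (r * g)` is divisible by `D`, hence by `(X - a) ^ (q + 1)`
  have hsmul : ((X - C a : K[X]) ^ q • (⟨y₀, hy₀mem⟩ : ↥(regOff v₀))) =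
      (⟨r, hrmem⟩ : ↥(regOff v₀)) * g := by
    refine Subtype.ext ?_
    rw [coe_smul hx, MulMemClass.coe_mul, map_pow, map_sub, Polynomial.aeval_X,
      Polynomial.aeval_C]
    show (x - algebraMap K F a) ^ q * y₀ = r * (g : F)
    rw [hy₀, mul_div_cancel₀ _ (pow_ne_zero q hxa0), mul_comm]
  have hdvd1 : D ∣ (X - C a : K[X]) ^ q * Algebra.trace K[X] ↥(regOff v₀) ⟨y₀, hy₀mem⟩ := by
    have h1 := htrace ⟨r, hrmem⟩
    rw [← hsmul, map_smul, smul_eq_mul] at h1
    exact h1
  have hdvd2 : (X - C a : K[X]) ^ (q + 1) ∣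
      (X - C a : K[X]) ^ q * Algebra.trace K[X] ↥(regOff v₀) ⟨y₀, hy₀mem⟩ := by
    refine dvd_trans (dvd_trans (pow_dvd_pow _ hq) ?_) hdvd1
    rw [hμ]
    exact Polynomial.pow_rootMultiplicity_dvd D a
  rw [pow_succ, mul_dvd_mul_iff_left (pow_ne_zero q (Polynomial.X_sub_C_ne_zero a))] at hdvd2
  exact hT (Polynomial.dvd_iff_isRoot.mp hdvd2)

end Fermat.Agent.S27.Hur.Tame
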