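import Mathlib
import Fermat.Agent.S17.R.Branch
import Fermat.Agent.S17.R.Gaps
import Fermat.Agent.S17.R.PoleDegree
import Fermat.Agent.S17.HB.HurS.Dual
import Fermat.Agent.S27.Hur.Tame
import Fermat.Agent.S27.Hur.Count

/-!
# Program PJ (statement S27), strand L, leaf HUR (assembly): the ramification divisor

`x` is a function regular off the place `v₀` with a pole of order `n0 > 0` at `v₀`.  The
ramification divisor of `x` off `v₀` is `E = ∑_{v ≠ v₀} (e_v - 1) · v`, `e_v = ord_v (x - x(v))`
(finite support: `R.branch_finite`).  `exists_ramDiv` :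

  `2 gR + n0 - 1 ≤ deg E`.

Proof: the dual elements `g j` of the Apéry basis for the trace form (`Dual.exists_dual`),
`z j = g j / D(x)`, have a zero of order `ν j` at `v₀`, poles of order at most `e_v - 1` off `v₀`
(`Tame.tame`), and are `K[x]`-independent; `Count.ram_ge` counts the functions `x ^ d * z j`
against Riemann's theorem.
-/

set_option autoImplicit false

namespace Fermat.Agent.S27.Hur.RamDiv

open AlgebraicCurve Polynomial Fermat.Agent.S17.R Fermat.Agent.S24.FF
open Fermat.Agent.S17.H.AperyAlg Fermat.Agent.S17.HB.HurS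

variable {K F : Type*} [Field K] [Field F] [Algebra K F]

/-- A function vanishes at a place for at most one value. -/
theorem value_unique (v : Place K F) {x : F} {a a' : K}
    (h : 0 < v.ord (x - algebraMap K F a)) (h' : 0 < v.ord (x - algebraMap K F a')) : a = a' := by
  by_contra hne
  have hc : algebraMap K F (a' - a) ≠ 0 := by
    intro h0
    exact hne ((sub_eq_zero.mp ((map_eq_zero (algebraMap K F)).mp h0)).symm)
  have heq : (x - algebraMap K F a) - (x - algebraMap K F a') = algebraMap K F (a' - a) := by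
    rw [map_sub]
    ring
  have h1 := ord_sub_ge v (f := x - algebraMap K F a) (g := x - algebraMap K F a')
    (by rw [heq]; exact hc)
  rw [heq, ord_algebraMap] at h1
  have h2 : 0 < min (v.ord (x - algebraMap K F a)) (v.ord (x - algebraMap K F a')) :=
    lt_min h h'
  omega

variable [IsAlgClosed K] [CharZero K] [Algebra.EssFiniteType K F]

/-- A function regular at `v` which is not constant vanishes at `v` after subtracting its
value. -/
theorem exists_value (htr : Algebra.trdeg K F = 1) {v₀ : Place K F} {x : F}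
    (hx : x ∈ regOff v₀) (hpole : v₀.ord x ≠ 0) (v : Place K F) (hv : v ≠ v₀) :
    ∃ a : K, 0 < v.ord (x - algebraMap K F a) := by
  refine ⟨evalAt htr v ⟨x, hx v hv⟩, ?_⟩
  have h := (evalAt_eq_iff htr v ⟨x, hx v hv⟩ (evalAt htr v ⟨x, hx v hv⟩)).mp rfl
  rcases h with h | h
  · exfalso
    apply hpole
    have h' : x = algebraMap K F (evalAt htr v ⟨x, hx v hv⟩) := h
    rw [h']
    exact ord_algebraMap v₀ _
  · exact h

/-- The ramification divisor of `x` off `v₀`, with its defining property. -/
theorem exists_divisor (htr : Algebra.trdeg K F = 1) (v₀ : Place K F) {x : F}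
    (hx : x ∈ regOff v₀) {n0 : ℕ} (hn0 : 0 < n0) (hord : v₀.ord x = -(n0 : ℤ)) :
    ∃ E : Divisor K F, E v₀ = 0 ∧
      ∀ (v : Place K F) (a : K), 0 < v.ord (x - algebraMap K F a) →
        E v = v.ord (x - algebraMap K F a) - 1 := by
  classical
  have hn0' : (0 : ℤ) < (n0 : ℤ) := by exact_mod_cast hn0
  have hneg : v₀.ord x < 0 := by rw [hord]; omega
  have hpole : v₀.ord x ≠ 0 := by omega
  have htrans : Transcendental K x := PoleDegree.transcendental_of_ord_ne_zero hpole
  have hbranch := branch_finite htr htrans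
  -- the candidate function
  obtain ⟨e, he⟩ : ∃ e : Place K F → ℤ, e v₀ = 0 ∧
      ∀ (v : Place K F) (a : K), 0 < v.ord (x - algebraMap K F a) →
        e v = v.ord (x - algebraMap K F a) - 1 := by
    refine ⟨fun v => if h : v = v₀ then 0 else
      v.ord (x - algebraMap K F (exists_value htr hx hpole v h).choose) - 1, ?_, ?_⟩
    · simp
    · intro v a hva
      have hv : v ≠ v₀ := PoleDegree.ne_of_mem_fibre hneg hva
      have hspec := (exists_value htr hx hpole v hv).choose_spec
      have hval : (exists_value htr hx hpole v hv).choose = a := value_unique v hspec hva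
      simp only [dif_neg hv]
      rw [hval]
  have hfin : (Function.support e).Finite := by
    refine Set.Finite.subset (Set.Finite.biUnion hbranch
      (fun c _ => PoleDegree.fibre_finite htr (v₀ := v₀) (x := x) hpole c)) ?_
    intro v hv
    have hv0 : e v ≠ 0 := hv
    have hne : v ≠ v₀ := by
      rintro rfl
      exact hv0 he.1
    obtain ⟨a, ha⟩ := exists_value htr hx hpole v hne
    have h1 := he.2 v a ha
    simp only [Set.mem_iUnion, Set.mem_ofPred_eq, exists_prop]
    refine ⟨a, ⟨v, ?_⟩, ha⟩
    omega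
  refine ⟨Finsupp.ofSupportFinite e hfin, ?_, ?_⟩
  · rw [Finsupp.ofSupportFinite_coe]
    exact he.1
  · intro v a hva
    rw [Finsupp.ofSupportFinite_coe]
    exact he.2 v a hva

/-- **HUR-S, the ramification bound**: the ramification divisor of `x` off `v₀` has degree at
least `2 gR + n0 - 1`. -/
theorem exists_ramDiv (htr : Algebra.trdeg K F = 1) (v₀ : Place K F) {x : F}
    (hx : x ∈ regOff v₀) {n0 : ℕ} (hn0 : 0 < n0) (hord : v₀.ord x = -(n0 : ℤ)) :
    ∃ E : Divisor K F, E v₀ = 0 ∧
      (∀ (v : Place K F) (a : K), 0 < v.ord (x - algebraMap K F a) →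
        E v = v.ord (x - algebraMap K F a) - 1) ∧
      2 * (gR K F : ℤ) + (n0 : ℤ) - 1 ≤ Divisor.degree E := by
  classical
  have hn0' : (0 : ℤ) < (n0 : ℤ) := by exact_mod_cast hn0
  have hpole : v₀.ord x ≠ 0 := by rw [hord]; omega
  obtain ⟨E, hE0, hE⟩ := exists_divisor htr v₀ hx hn0 hord
  refine ⟨E, hE0, hE, ?_⟩
  obtain ⟨ν, g, D, hD, hν, hgR, hgord, hgtr, hgind⟩ := Dual.exists_dual htr v₀ hx hn0 hord
  obtain ⟨hDx0, hDxord⟩ := Gaps.ord_aeval v₀ hn0 hord hD
  refine Count.ram_ge htr v₀ hx hn0 hord ν hν hgR (fun j => (g j : F) / Polynomial.aeval x D)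
    ?_ ?_ E hE0 ?_
  · intro j
    show (ν j : ℤ) ≤ v₀.ord ((g j : F) / Polynomial.aeval x D)
    rw [div_eq_mul_inv, v₀.ord_mul (hgord j).1 (inv_ne_zero hDx0), v₀.ord_inv, (hgord j).2,
      hDxord]
    push_cast
    nlinarith
  · intro c hc
    apply hgind c
    have h1 : ∑ j, Polynomial.aeval x (c j) * ((g j : F) / Polynomial.aeval x D) =
        (∑ j, Polynomial.aeval x (c j) * (g j : F)) / Polynomial.aeval x D := by
      rw [Finset.sum_div]
      exact Finset.sum_congr rfl fun j _ => by rw [mul_div_assoc]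
    rw [h1, div_eq_zero_iff] at hc
    exact hc.resolve_right hDx0
  · intro j v hv
    obtain ⟨a, ha⟩ := exists_value htr hx hpole v hv
    have h1 := Tame.tame htr v₀ hx hn0 hord D hD (g j) (hgord j).1 (hgtr j) v a ha
    show -E v ≤ v.ord ((g j : F) / Polynomial.aeval x D)
    rw [div_eq_mul_inv, v.ord_mul (hgord j).1 (inv_ne_zero hDx0), v.ord_inv, hE v a ha]
    omega

end Fermat.Agent.S27.Hur.RamDiv
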