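import Mathlib
import Fermat.Agent.S17.R.LSpace
import Fermat.Agent.S17.R.Places
import Fermat.Agent.S17.R.PoleOrder
import Fermat.Agent.S17.HB.OrdRule
import Fermat.Agent.S17.HB.CarChain
import Fermat.Agent.S27.Hur.RamDiv

/-!
# Program PJ (statement S27), strand L, leaf HUR (exit): the Hurwitz inequality

For a `K`-derivation `δ` of a function field `F / K` of one variable satisfying the order rule
(`OrdRule δ`, the chain rule read on orders; it holds for every non-zero derivation) there is a
divisor `Dδ` with `ord_v (δ π) = - Dδ v` for every uniformiser `π` at every place `v` (the divisor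
of the differential dual to `δ`), and

  `2 gR - 2 ≤ deg Dδ`.

Proof: `x` regular off a place `v₀` with a pole of order `n0` there; `Dδ = E - (n0 + 1) v₀ -
div (δ x)` with `E` the ramification divisor of `x` off `v₀`, of degree `≥ 2 gR + n0 - 1`
(`RamDiv.exists_ramDiv`); principal divisors have degree zero.
-/

set_option autoImplicit false

namespace Fermat.Agent.S27.Hur.Exit

open AlgebraicCurve Fermat.Agent.S17.R Fermat.Agent.S24.FF Fermat.Agent.S17.HB

variable {K F : Type*} [Field K] [Field F] [Algebra K F]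

/-- Every place has a uniformiser. -/
theorem exists_unif (v : Place K F) : ∃ π : F, v.ord π = 1 := by
  obtain ⟨ϖ, hϖ⟩ := IsDiscreteValuationRing.exists_irreducible ↥v.toValuationSubring
  exact ⟨(ϖ : F), v.ord_coe_irreducible hϖ⟩

variable [IsAlgClosed K] [CharZero K] [Algebra.EssFiniteType K F]

/-- **HUR-S exit**: the Hurwitz inequality for a derivation satisfying the order rule. -/
theorem hurwitz_of_ordRule (htr : Algebra.trdeg K F = 1) (δ : Derivation K F F)
    (hrule : OrdRule δ) :
    ∃ Dδ : Divisor K F, (∀ (v : Place K F) (π : F), v.ord π = 1 → v.ord (δ π) = -Dδ v) ∧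
      2 * (gR K F : ℤ) - 2 ≤ Divisor.degree Dδ := by
  classical
  obtain ⟨v₀⟩ := nonempty_place (K := K) (F := F) htr
  obtain ⟨N₀, hN₀⟩ := exists_nongap_bound htr v₀
  obtain ⟨x, hxL, hxord⟩ := hN₀ (N₀ + 1) (Nat.le_succ _)
  have hx : x ∈ regOff v₀ := Eval.mem_regOff_of_mem_L hxL
  have hn0 : 0 < N₀ + 1 := Nat.succ_pos _
  have hn0' : (0 : ℤ) < ((N₀ + 1 : ℕ) : ℤ) := by exact_mod_cast hn0
  have hpole : v₀.ord x ≠ 0 := by rw [hxord]; omega
  obtain ⟨E, hE0, hE, hdeg⟩ := RamDiv.exists_ramDiv htr v₀ hx hn0 hxord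
  obtain ⟨π₀, hπ₀⟩ := exists_unif v₀
  have hδx : δ x ≠ 0 := hrule.deriv_ne_zero hπ₀ hpole
  refine ⟨E - (((N₀ + 1 : ℕ) : ℤ) + 1) • Finsupp.single v₀ (1 : ℤ) - divOf K (δ x), ?_, ?_⟩
  · intro v π hπ
    rw [Finsupp.sub_apply, Finsupp.sub_apply, Finsupp.smul_apply, divOf_apply htr]
    by_cases hv : v = v₀
    · subst hv
      have h1 := hrule.ord_deriv hπ (h := x) hpole
      rw [hE0, Finsupp.single_eq_same, smul_eq_mul, mul_one]
      rw [hxord] at h1
      omega
    · obtain ⟨a, ha⟩ := RamDiv.exists_value htr hx hpole v hv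
      have h1 := hrule.ord_deriv hπ (h := x - algebraMap K F a) (by omega)
      have h2 : δ (x - algebraMap K F a) = δ x := by
        rw [map_sub, Derivation.map_algebraMap, sub_zero]
      rw [h2] at h1
      rw [hE v a ha, Finsupp.single_eq_of_ne hv, smul_zero]
      omega
  · rw [map_sub, map_sub, map_zsmul, Divisor.degree_single, degree_divOf htr,
      deg_eq_one htr v₀]
    simp only [smul_eq_mul, Nat.cast_one, mul_one, sub_zero]
    linarith

/-- **The Hurwitz inequality** for every non-zero derivation of a function field of one variable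
(algebraically closed constant field of characteristic zero): the divisor `Dδ` of the differential
dual to `δ` has degree at least `2 gR - 2`. -/
theorem hurwitz (htr : Algebra.trdeg K F = 1) (δ : Derivation K F F) (hδ : δ ≠ 0) :
    ∃ Dδ : Divisor K F, (∀ (v : Place K F) (π : F), v.ord π = 1 → v.ord (δ π) = -Dδ v) ∧
      2 * (gR K F : ℤ) - 2 ≤ Divisor.degree Dδ :=
  hurwitz_of_ordRule htr δ (CarChain.ordRule htr δ hδ)

end Fermat.Agent.S27.Hur.Exit
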